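import Fermat.Agent.Ribet.H712.DlogSpec
import Fermat.Agent.S29.HI
import Fermat.Agent.Lib.FF398.Hecke
import Fermat.Agent.Lib.RR.H383.FF1OfFinite

/-!
# Row 38, WALL-p, DLOG (I2), leaf KH = `H712.KummerHeckeStatement`   (helper402)

`T_ℓ x = a x`, `x = [D]`, `div f = p D`  ⟹  `Nm_α(β f) = c · f^a · u^p`.

Proof: `T_ℓ [D] = [D']` with `p D' = div (Nm_α (β f))` (`S29.H395.heckeOperatorBar_mk`, all Hecke
inputs hold by `S29.heckeInputsAlong_bar`); `[D'] = a [D]` gives `u` with `D' - a D = div u`; hence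
`Nm_α(β f) / (f^a u^p)` has no zeros and no poles, so it is a (nonzero) constant
(`Lib.RR.H383.eq_algebraMap_of_forall_ord_eq_zero`).
-/

set_option autoImplicit false
set_option synthInstance.maxHeartbeats 400000
set_option maxHeartbeats 1000000

noncomputable section

namespace Fermat.Agent.Ribet.H402

open AlgebraicCurve ModularCurve
open Fermat.Agent.S24
open Fermat.Agent.Ribet.H884 Fermat.Agent.Ribet.H712

/-- A function on `X₀(N)` without zeros and poles is a constant. -/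
theorem exists_const_of_ord_eq_zero_402 (N : ℕ) [NeZero N] (u : FF N)
    (hu : ∀ v : Place Kbar (FF N), v.ord u = 0) :
    ∃ c : Kbar, algebraMap Kbar (FF N) c = u :=
  Fermat.Agent.Lib.RR.H383.eq_algebraMap_of_forall_ord_eq_zero
    (Fermat.Agent.Lib.FF398.transcendental_jF N) hu

/-- **(KH)** the Hecke relation for a Kummer generator of a `T_ℓ`-eigenclass. -/
theorem kummerHecke : KummerHeckeStatement := by
  intro N p _ hp ℓ hℓN x f hK a hx
  have : NeZero (ℓ : ℕ) := ⟨ℓ.2.ne_zero⟩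
  obtain ⟨hf, D, rfl, hD⟩ := hK
  have hHI : HeckeInputsAlong (AlgebraicClosure ℚ) N (ℓ : ℕ) :=
    Fermat.Agent.S29.heckeInputsAlong_bar N (ℓ : ℕ) ℓ.2
  obtain ⟨D', hD', hK'⟩ := Fermat.Agent.S29.H395.heckeOperatorBar_mk N ℓ hHI D
  have hord : ∀ v : Place Kbar (FF N),
      (p : ℤ) * (D' : Divisor Kbar (FF N)) v = v.ord (heckeNormP N ℓ f) :=
    hK' (p : ℤ) f hf (fun v => (hD v).symm)
  -- `[D'] = a [D] = [a D]`
  have h1 : Pic0.mk D' = Pic0.mk (a • D) := by
    rw [← hD', hx]; rfl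
  obtain ⟨u, hu, hDu⟩ := Fermat.Agent.S29.H395.mk_eq_mk_iff.mp h1
  have hnorm0 : heckeNormP N ℓ f ≠ 0 := Fermat.Agent.S29.H395.heckeNorm_ne_zero N (ℓ : ℕ) hHI hf
  -- the quotient has trivial divisor
  set w : FF N := heckeNormP N ℓ f * (f ^ a * u ^ p)⁻¹ with hw
  have hfa : f ^ a ≠ 0 := zpow_ne_zero a hf
  have hup : u ^ p ≠ 0 := pow_ne_zero p hu
  have hden : f ^ a * u ^ p ≠ 0 := mul_ne_zero hfa hup
  have hw0 : w ≠ 0 := mul_ne_zero hnorm0 (inv_ne_zero hden)
  have hwo : ∀ v : Place Kbar (FF N), v.ord w = 0 := by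
    intro v
    have e1 : v.ord w = v.ord (heckeNormP N ℓ f) - v.ord (f ^ a * u ^ p) := by
      rw [hw, Place.ord_mul _ hnorm0 (inv_ne_zero hden), Place.ord_inv]
      ring
    have e2 : v.ord (f ^ a * u ^ p) = a * v.ord f + p * v.ord u := by
      rw [Place.ord_mul _ hfa hup, Place.ord_zpow, Fermat.Agent.Lib.RR.ord_pow]
    have e3 := hDu v
    rw [AddSubgroup.coe_zsmul, Finsupp.smul_apply, smul_eq_mul] at e3
    rw [e1, e2, ← hord v, hD v, ← e3]
    ring
  obtain ⟨c, hc⟩ := exists_const_of_ord_eq_zero_402 N w hwo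
  refine ⟨c, u, ?_, hu, ?_⟩
  · rintro rfl
    rw [map_zero] at hc
    exact hw0 hc.symm
  · rw [hc, hw, mul_assoc, mul_assoc, inv_mul_cancel₀ hden, mul_one]

end Fermat.Agent.Ribet.H402

end
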